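import Mathlib

/-!
# TW/Elem/Count : the elementary counting lemma behind "Taylor's trick at one finite level"
-/

namespace Fermat.Agent.TW.Elem

variable {A : Type*} [CommRing A] {E : Type*} [AddCommGroup E] [Module A E]

/-- `u E` as a submodule. -/
def rg (u : A) : Submodule A E := LinearMap.range (LinearMap.lsmul A E u)

lemma mem_rg {u : A} {y : E} : y ∈ (rg u : Submodule A E) ↔ ∃ x : E, u • x = y := by
  simp [rg, LinearMap.mem_range]

lemma smul_mem_rg (u : A) (x : E) : u • x ∈ (rg u : Submodule A E) := mem_rg.2 ⟨x, rfl⟩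

instance finite_quot [Finite E] (N : Submodule A E) : Finite (E ⧸ N) :=
  Finite.of_surjective _ (Submodule.Quotient.mk_surjective N)

lemma card_quot_le_of_le [Finite E] {N N' : Submodule A E} (h : N ≤ N') :
    Nat.card (E ⧸ N') ≤ Nat.card (E ⧸ N) := by
  apply Nat.card_le_card_of_surjective (Submodule.mapQ N N' LinearMap.id (by simpa using h))
  intro y
  obtain ⟨x, rfl⟩ := Submodule.Quotient.mk_surjective _ y
  exact ⟨Submodule.Quotient.mk x, by simp⟩

lemma one_le_card_quot [Finite E] (N : Submodule A E) : 1 ≤ Nat.card (E ⧸ N) :=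
  Nat.one_le_iff_ne_zero.2 (Nat.card_pos).ne'

/-- one step of the chain -/
lemma card_step [Finite E] (N : Submodule A E) (u : A) (i : ℕ) :
    Nat.card (E ⧸ (N ⊔ rg (u ^ (i + 1)))) ≤
      Nat.card (E ⧸ (N ⊔ rg (u ^ i))) * Nat.card (E ⧸ (N ⊔ rg u)) := by
  set H : Submodule A E := N ⊔ rg (u ^ (i + 1)) with hH
  set K : Submodule A E := N ⊔ rg (u ^ i) with hK
  set P : Submodule A E := N ⊔ rg u with hP
  have hHK : H ≤ K := by
    refine sup_le le_sup_left ?_
    rintro y hy
    obtain ⟨x, rfl⟩ := mem_rg.1 hy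
    refine Submodule.mem_sup_right (mem_rg.2 ⟨u • x, ?_⟩)
    rw [smul_smul, pow_succ]
  have h1 : Nat.card (E ⧸ H) = Nat.card (K.map H.mkQ) * Nat.card (E ⧸ K) := by
    rw [Submodule.card_eq_card_quotient_mul_card (K.map H.mkQ)]
    congr 1
    exact Nat.card_congr (Submodule.quotientQuotientEquivQuotient H K hHK).toEquiv
  have hcomap : P ≤ H.comap (LinearMap.lsmul A E (u ^ i)) := by
    refine sup_le ?_ ?_
    · intro n hn
      exact Submodule.mem_sup_left (N.smul_mem _ hn)
    · rintro y hy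
      obtain ⟨x, rfl⟩ := mem_rg.1 hy
      refine Submodule.mem_sup_right (mem_rg.2 ⟨x, ?_⟩)
      simp [smul_smul, pow_succ, mul_comm]
  set f := Submodule.mapQ P H (LinearMap.lsmul A E (u ^ i)) hcomap with hf
  have hle : K.map H.mkQ ≤ LinearMap.range f := by
    rintro _ ⟨k, hk, rfl⟩
    obtain ⟨n, hn, w, hw, rfl⟩ := Submodule.mem_sup.1 hk
    obtain ⟨x, rfl⟩ := mem_rg.1 hw
    refine ⟨Submodule.Quotient.mk x, ?_⟩
    simp only [hf, Submodule.mapQ_apply, LinearMap.lsmul_apply, Submodule.mkQ_apply]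
    rw [eq_comm, Submodule.Quotient.eq]
    simpa using Submodule.mem_sup_left hn
  have h2 : Nat.card (K.map H.mkQ) ≤ Nat.card (E ⧸ P) := by
    calc Nat.card (K.map H.mkQ) ≤ Nat.card (LinearMap.range f) :=
          Nat.card_le_card_of_injective (Submodule.inclusion hle) (Submodule.inclusion_injective hle)
      _ ≤ Nat.card (E ⧸ P) :=
          Nat.card_le_card_of_surjective f.rangeRestrict f.surjective_rangeRestrict
  rw [h1, mul_comm]
  exact Nat.mul_le_mul_left _ h2

/-- **(N1)** if `u ^ e` maps `E` into `N` then `#(E/N) ≤ #(E/(N + uE)) ^ e`. -/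
lemma card_quot_le_pow [Finite E] (N : Submodule A E) (u : A) (e : ℕ)
    (h : ∀ x : E, u ^ e • x ∈ N) :
    Nat.card (E ⧸ N) ≤ Nat.card (E ⧸ (N ⊔ rg u)) ^ e := by
  have key : ∀ i : ℕ, Nat.card (E ⧸ (N ⊔ rg (u ^ i))) ≤ Nat.card (E ⧸ (N ⊔ rg u)) ^ i := by
    intro i
    induction i with
    | zero =>
      have : (N ⊔ rg (u ^ 0) : Submodule A E) = ⊤ := by
        rw [eq_top_iff]
        intro x _
        exact Submodule.mem_sup_right (mem_rg.2 ⟨x, by simp⟩)
      rw [this, pow_zero]
      exact (Nat.card_eq_one_iff_unique.2 ⟨inferInstance, inferInstance⟩).le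
    | succ i ih =>
      calc _ ≤ _ := card_step N u i
        _ ≤ Nat.card (E ⧸ (N ⊔ rg u)) ^ i * Nat.card (E ⧸ (N ⊔ rg u)) :=
            Nat.mul_le_mul_right _ ih
        _ = _ := (pow_succ _ _).symm
  have hN : (N ⊔ rg (u ^ e) : Submodule A E) = N := by
    refine sup_eq_left.2 ?_
    rintro y hy
    obtain ⟨x, rfl⟩ := mem_rg.1 hy
    exact h x
  have := key e
  rwa [hN] at this

lemma rg_le_span_smul (u : A) (S : Set A) (hu : u ∈ S) :
    (rg u : Submodule A E) ≤ Ideal.span S • (⊤ : Submodule A E) := by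
  rintro y hy
  obtain ⟨x, rfl⟩ := mem_rg.1 hy
  exact Submodule.smul_mem_smul (Ideal.subset_span hu) trivial

/-- **(N1), several elements.** -/
lemma card_quot_le_pow_finset [Finite E] (S : Finset A) (e : ℕ) :
    ∀ (N : Submodule A E), (∀ u ∈ S, ∀ x : E, u ^ e • x ∈ N) →
    Nat.card (E ⧸ N) ≤
      Nat.card (E ⧸ (N ⊔ Ideal.span (S : Set A) • (⊤ : Submodule A E))) ^ (e ^ S.card) := by
  classical
  induction S using Finset.induction_on with
  | empty =>
    intro N _
    simp
  | insert u S hu ih =>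
    intro N h
    have h1 := card_quot_le_pow N u e (h u (Finset.mem_insert_self _ _))
    have h2 := ih (N ⊔ rg u) (fun v hv x =>
      Submodule.mem_sup_left (h v (Finset.mem_insert_of_mem hv) x))
    have h3 : (N ⊔ rg u) ⊔ Ideal.span (S : Set A) • (⊤ : Submodule A E) ≤
        N ⊔ Ideal.span ((insert u S : Finset A) : Set A) • (⊤ : Submodule A E) := by
      refine sup_le (sup_le le_sup_left ?_) ?_
      · exact le_sup_of_le_right (rg_le_span_smul u _ (by simp))
      · refine le_sup_of_le_right (Submodule.smul_mono_left (Ideal.span_mono ?_))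
        simp
    have h3' : N ⊔ Ideal.span ((insert u S : Finset A) : Set A) • (⊤ : Submodule A E) ≤
        (N ⊔ rg u) ⊔ Ideal.span (S : Set A) • (⊤ : Submodule A E) := by
      refine sup_le (le_sup_of_le_left le_sup_left) ?_
      rw [Submodule.smul_le]
      intro a ha x _
      rw [Finset.coe_insert, Ideal.mem_span_insert] at ha
      obtain ⟨c, z, hz, rfl⟩ := ha
      rw [add_smul]
      refine add_mem ?_ ?_
      · refine Submodule.mem_sup_left (Submodule.mem_sup_right (mem_rg.2 ⟨c • x, ?_⟩))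
        rw [smul_smul, mul_comm]
      · exact Submodule.mem_sup_right (Submodule.smul_mem_smul hz trivial)
    have h4 := le_antisymm h3 h3'
    rw [Finset.card_insert_of_notMem hu, pow_succ, pow_mul, ← h4]
    calc _ ≤ _ := h1
      _ ≤ _ := Nat.pow_le_pow_left h2 e

/-- the ideal of all `a` with `a E ⊆ N`. -/
def col (N : Submodule A E) : Ideal A where
  carrier := {a | ∀ e : E, a • e ∈ N}
  add_mem' := by
    intro a b ha hb e
    rw [add_smul]
    exact N.add_mem (ha e) (hb e)
  zero_mem' := by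
    intro _
    simp
  smul_mem' := by
    intro c a ha e
    rw [smul_eq_mul, mul_smul]
    exact N.smul_mem _ (ha e)

lemma mem_col {N : Submodule A E} {a : A} : a ∈ col N ↔ ∀ e : E, a • e ∈ N := Iff.rfl

lemma col_mono {N N' : Submodule A E} (h : N ≤ N') : col N ≤ col N' := fun _ ha e => h (ha e)

lemma span_le_col (S : Set A) : Ideal.span S ≤ col (Ideal.span S • (⊤ : Submodule A E)) :=
  fun _ ha e => Submodule.smul_mem_smul ha trivial

lemma smul_top_le_of_le_col {I : Ideal A} {N : Submodule A E} (h : I ≤ col N) :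
    I • (⊤ : Submodule A E) ≤ N := by
  rw [Submodule.smul_le]
  intro a ha e _
  exact h ha e

section main

variable {R : Type*} {G : Type*}
variable (lam : A) (x y z x' y' z' : R → A) (X : G → A)

/-- the ideal `m = (lam, x_r, y_r, z_r, x'_r, y'_r, z'_r, X_i)`. -/
def mm : Ideal A :=
  Ideal.span ({lam} ∪ Set.range x ∪ Set.range y ∪ Set.range z ∪ Set.range x' ∪ Set.range y' ∪
    Set.range z' ∪ Set.range X)

lemma lam_mem_mm : lam ∈ mm lam x y z x' y' z' X := Ideal.subset_span (by simp)
lemma x_mem_mm (r : R) : x r ∈ mm lam x y z x' y' z' X := Ideal.subset_span (by simp)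
lemma y_mem_mm (r : R) : y r ∈ mm lam x y z x' y' z' X := Ideal.subset_span (by simp)
lemma z_mem_mm (r : R) : z r ∈ mm lam x y z x' y' z' X := Ideal.subset_span (by simp)
lemma x'_mem_mm (r : R) : x' r ∈ mm lam x y z x' y' z' X := Ideal.subset_span (by simp)
lemma y'_mem_mm (r : R) : y' r ∈ mm lam x y z x' y' z' X := Ideal.subset_span (by simp)
lemma z'_mem_mm (r : R) : z' r ∈ mm lam x y z x' y' z' X := Ideal.subset_span (by simp)
lemma X_mem_mm (i : G) : X i ∈ mm lam x y z x' y' z' X := Ideal.subset_span (by simp)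

/-- **The counting lemma.** -/
theorem card_le [Fintype R] [Fintype G] [Finite E] [Nonempty R] (J : ℕ) (hJ1 : 1 ≤ J)
    (hJ : ∀ a ∈ mm lam x y z x' y' z' X, ∀ e : E, a ^ J • e = 0)
    (h1 : ∀ r (e : E), (x r * y' r - x' r * y r) • e = 0)
    (h2 : ∀ r (e : E), (x r * z' r - x' r * z r) • e = 0)
    (h3 : ∀ r (e : E), (y r * z' r - y' r * z r) • e = 0)
    (hQ : ∀ r (e : E), (x r ^ 2 + y r * z r - lam ^ 2) • e = 0)
    (ht : ∀ r (e : E), ∃ e' : E, (x' r ^ 2 + y' r * z' r) • e = lam • e') :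
    Nat.card E ≤ Nat.card (E ⧸ (mm lam x y z x' y' z' X • (⊤ : Submodule A E))) ^
      (4 * 8 ^ Fintype.card R * J ^ (3 * Fintype.card R + Fintype.card G)) := by
  classical
  set m := mm lam x y z x' y' z' X with hm
  -- the parameters
  set a1 : R → A := fun r => y' r + x r + y r with ha1
  set a2 : R → A := fun r => z' r + x r with ha2
  set a3 : R → A := fun r => y r - z r with ha3
  set S1 : Finset A := Finset.univ.image a1 ∪ Finset.univ.image a2 ∪ Finset.univ.image a3 ∪
    Finset.univ.image X with hS1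
  set S3 : Finset A := Finset.univ.image x ∪ Finset.univ.image y ∪ Finset.univ.image x' with hS3
  set N1 : Submodule A E := Ideal.span (S1 : Set A) • (⊤ : Submodule A E) with hN1
  set N2 : Submodule A E := N1 ⊔ Ideal.span (({lam} : Finset A) : Set A) • (⊤ : Submodule A E)
    with hN2
  set N3 : Submodule A E := N2 ⊔ Ideal.span (S3 : Set A) • (⊤ : Submodule A E) with hN3
  have hS1c : S1.card ≤ 3 * Fintype.card R + Fintype.card G := by
    have e1 : (Finset.univ.image a1).card ≤ Fintype.card R := Finset.card_image_le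
    have e2 : (Finset.univ.image a2).card ≤ Fintype.card R := Finset.card_image_le
    have e3 : (Finset.univ.image a3).card ≤ Fintype.card R := Finset.card_image_le
    have e4 : (Finset.univ.image X).card ≤ Fintype.card G := Finset.card_image_le
    have f1 := Finset.card_union_le (Finset.univ.image a1 ∪ Finset.univ.image a2 ∪
      Finset.univ.image a3) (Finset.univ.image X)
    have f2 := Finset.card_union_le (Finset.univ.image a1 ∪ Finset.univ.image a2)
      (Finset.univ.image a3)
    have f3 := Finset.card_union_le (Finset.univ.image a1) (Finset.univ.image a2)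
    rw [hS1]
    omega
  have hS3c : S3.card ≤ 3 * Fintype.card R := by
    have e1 : (Finset.univ.image x).card ≤ Fintype.card R := Finset.card_image_le
    have e2 : (Finset.univ.image y).card ≤ Fintype.card R := Finset.card_image_le
    have e3 : (Finset.univ.image x').card ≤ Fintype.card R := Finset.card_image_le
    have f2 := Finset.card_union_le (Finset.univ.image x ∪ Finset.univ.image y)
      (Finset.univ.image x')
    have f3 := Finset.card_union_le (Finset.univ.image x) (Finset.univ.image y)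
    rw [hS3]
    omega
  -- membership of the parameters
  have hS1m : ∀ u ∈ S1, u ∈ m := by
    intro u hu
    simp only [hS1, Finset.mem_union, Finset.mem_image, Finset.mem_univ, true_and] at hu
    rcases hu with ((⟨r, rfl⟩ | ⟨r, rfl⟩) | ⟨r, rfl⟩) | ⟨i, rfl⟩
    · exact m.add_mem (m.add_mem (y'_mem_mm lam x y z x' y' z' X r)
        (x_mem_mm lam x y z x' y' z' X r)) (y_mem_mm lam x y z x' y' z' X r)
    · exact m.add_mem (z'_mem_mm lam x y z x' y' z' X r) (x_mem_mm lam x y z x' y' z' X r)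
    · exact m.sub_mem (y_mem_mm lam x y z x' y' z' X r) (z_mem_mm lam x y z x' y' z' X r)
    · exact X_mem_mm lam x y z x' y' z' X i
  -- colon ideals
  have c1 : ∀ u ∈ S1, u ∈ col N1 := fun u hu => span_le_col _ (Ideal.subset_span hu)
  have ca1 : ∀ r, a1 r ∈ col N1 := fun r => c1 _ (by simp [hS1])
  have ca2 : ∀ r, a2 r ∈ col N1 := fun r => c1 _ (by simp [hS1])
  have ca3 : ∀ r, a3 r ∈ col N1 := fun r => c1 _ (by simp [hS1])
  have cX : ∀ i, X i ∈ col N1 := fun i => c1 _ (by simp [hS1])
  have k1 : ∀ r, x r * y' r - x' r * y r ∈ col N1 := fun r e => by rw [h1 r e]; exact N1.zero_mem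
  have k2 : ∀ r, x r * z' r - x' r * z r ∈ col N1 := fun r e => by rw [h2 r e]; exact N1.zero_mem
  have k3 : ∀ r, y r * z' r - y' r * z r ∈ col N1 := fun r e => by rw [h3 r e]; exact N1.zero_mem
  have kQ : ∀ r, x r ^ 2 + y r * z r - lam ^ 2 ∈ col N1 :=
    fun r e => by rw [hQ r e]; exact N1.zero_mem
  -- y^2 ∈ col N1
  have hy2 : ∀ r, y r ^ 2 ∈ col N1 := by
    intro r
    have : y r ^ 2 = (y r * z' r - y' r * z r) - y r * a2 r + (y r - a3 r) * a1 r
        + (x r + y r) * a3 r := by
      simp only [ha1, ha2, ha3]; ring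
    rw [this]
    exact (col N1).add_mem ((col N1).add_mem ((col N1).sub_mem (k3 r)
      ((col N1).mul_mem_left _ (ca2 r))) ((col N1).mul_mem_left _ (ca1 r)))
      ((col N1).mul_mem_left _ (ca3 r))
  -- xy ∈ col N1
  have hxy : ∀ r, x r * y r ∈ col N1 := by
    intro r
    have : x r * y r = x r * a1 r - x r * a2 r - x' r * a3 r - (x r * y' r - x' r * y r)
        + (x r * z' r - x' r * z r) := by
      simp only [ha1, ha2, ha3]; ring
    rw [this]
    exact (col N1).add_mem ((col N1).sub_mem ((col N1).sub_mem ((col N1).sub_mem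
      ((col N1).mul_mem_left _ (ca1 r)) ((col N1).mul_mem_left _ (ca2 r)))
      ((col N1).mul_mem_left _ (ca3 r))) (k1 r)) (k2 r)
  -- lam^2 + x' y ∈ col N1
  have hl2 : ∀ r, lam ^ 2 + x' r * y r ∈ col N1 := by
    intro r
    have : lam ^ 2 + x' r * y r = x r * a2 r + x' r * a3 r - (x r * z' r - x' r * z r)
        + y r ^ 2 - y r * a3 r - (x r ^ 2 + y r * z r - lam ^ 2) := by
      simp only [ha2, ha3]; ring
    rw [this]
    exact (col N1).sub_mem ((col N1).sub_mem ((col N1).add_mem ((col N1).sub_mem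
      ((col N1).add_mem ((col N1).mul_mem_left _ (ca2 r)) ((col N1).mul_mem_left _ (ca3 r)))
      (k2 r)) (hy2 r)) ((col N1).mul_mem_left _ (ca3 r))) (kQ r)
  -- lam^4 ∈ col N1
  have hl4 : lam ^ 4 ∈ col N1 := by
    obtain ⟨r⟩ := (inferInstance : Nonempty R)
    have : lam ^ 4 = (lam ^ 2 - x' r * y r) * (lam ^ 2 + x' r * y r) + x' r ^ 2 * y r ^ 2 := by
      ring
    rw [this]
    exact (col N1).add_mem ((col N1).mul_mem_left _ (hl2 r)) ((col N1).mul_mem_left _ (hy2 r))
  -- stage 2 ideals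
  have hN12 : N1 ≤ N2 := le_sup_left
  have clam : lam ∈ col N2 := by
    intro e
    exact Submodule.mem_sup_right (Submodule.smul_mem_smul (Ideal.subset_span (by simp)) trivial)
  have hx2 : ∀ r, x r ^ 2 ∈ col N2 := by
    intro r
    have : x r ^ 2 = lam * lam - y r ^ 2 + y r * a3 r + (x r ^ 2 + y r * z r - lam ^ 2) := by
      simp only [ha3]; ring
    rw [this]
    exact (col N2).add_mem ((col N2).add_mem ((col N2).sub_mem ((col N2).mul_mem_left _ clam)
      (col_mono hN12 (hy2 r))) ((col N2).mul_mem_left _ (col_mono hN12 (ca3 r))))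
      (col_mono hN12 (kQ r))
  have htc : ∀ r, x' r ^ 2 + y' r * z' r ∈ col N2 := by
    intro r e
    obtain ⟨e', he'⟩ := ht r e
    rw [he']
    exact clam e'
  have hx'2 : ∀ r, x' r ^ 2 ∈ col N2 := by
    intro r
    have : x' r ^ 2 = (x' r ^ 2 + y' r * z' r) - (a2 r - x r) * a1 r + (x r + y r) * a2 r
        - x r ^ 2 - x r * y r := by
      simp only [ha1, ha2]; ring
    rw [this]
    exact (col N2).sub_mem ((col N2).sub_mem ((col N2).add_mem ((col N2).sub_mem (htc r)
      ((col N2).mul_mem_left _ (col_mono hN12 (ca1 r))))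
      ((col N2).mul_mem_left _ (col_mono hN12 (ca2 r)))) (hx2 r)) (col_mono hN12 (hxy r))
  -- stage 3
  have hN23 : N2 ≤ N3 := le_sup_left
  have c3 : ∀ u ∈ S3, u ∈ col N3 := fun u hu e =>
    Submodule.mem_sup_right (Submodule.smul_mem_smul (Ideal.subset_span hu) trivial)
  have hmN3 : m • (⊤ : Submodule A E) ≤ N3 := by
    apply smul_top_le_of_le_col
    rw [hm, mm, Ideal.span_le]
    have hx : ∀ r, x r ∈ col N3 := fun r => c3 _ (by simp [hS3])
    have hy : ∀ r, y r ∈ col N3 := fun r => c3 _ (by simp [hS3])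
    have hx' : ∀ r, x' r ∈ col N3 := fun r => c3 _ (by simp [hS3])
    have h13 : N1 ≤ N3 := hN12.trans hN23
    intro u hu
    simp only [Set.mem_union, Set.mem_singleton_iff, Set.mem_range] at hu
    rcases hu with ((((((rfl | ⟨r, rfl⟩) | ⟨r, rfl⟩) | ⟨r, rfl⟩) | ⟨r, rfl⟩) | ⟨r, rfl⟩) |
      ⟨r, rfl⟩) | ⟨i, rfl⟩
    · exact col_mono hN23 clam
    · exact hx r
    · exact hy r
    · have : z r = y r - a3 r := by simp only [ha3]; ring
      rw [this]
      exact (col N3).sub_mem (hy r) (col_mono h13 (ca3 r))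
    · exact hx' r
    · have : y' r = a1 r - x r - y r := by simp only [ha1]; ring
      rw [this]
      exact (col N3).sub_mem ((col N3).sub_mem (col_mono h13 (ca1 r)) (hx r)) (hy r)
    · have : z' r = a2 r - x r := by simp only [ha2]; ring
      rw [this]
      exact (col N3).sub_mem (col_mono h13 (ca2 r)) (hx r)
    · exact col_mono h13 (cX i)
  -- the three inequalities
  have I1 : Nat.card E ≤ Nat.card (E ⧸ N1) ^ (J ^ S1.card) := by
    have := card_quot_le_pow_finset (E := E) S1 J ⊥ (fun u hu e => by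
      rw [hJ u (hS1m u hu) e]; exact Submodule.zero_mem _)
    rw [bot_sup_eq] at this
    calc Nat.card E = Nat.card (E ⧸ (⊥ : Submodule A E)) :=
          Nat.card_congr (Submodule.quotEquivOfEqBot ⊥ rfl).symm.toEquiv
      _ ≤ _ := this
  have I2 : Nat.card (E ⧸ N1) ≤ Nat.card (E ⧸ N2) ^ 4 := by
    have := card_quot_le_pow_finset (E := E) ({lam} : Finset A) 4 N1 (fun u hu e => by
      rw [Finset.mem_singleton] at hu
      subst hu
      exact hl4 e)
    rw [Finset.card_singleton, pow_one] at this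
    exact this
  have I3 : Nat.card (E ⧸ N2) ≤ Nat.card (E ⧸ N3) ^ (2 ^ S3.card) := by
    refine card_quot_le_pow_finset (E := E) S3 2 N2 (fun u hu e => ?_)
    simp only [hS3, Finset.mem_union, Finset.mem_image, Finset.mem_univ, true_and] at hu
    rcases hu with (⟨r, rfl⟩ | ⟨r, rfl⟩) | ⟨r, rfl⟩
    · exact hx2 r e
    · exact col_mono hN12 (hy2 r) e
    · exact hx'2 r e
  have I4 : Nat.card (E ⧸ N3) ≤ Nat.card (E ⧸ (m • (⊤ : Submodule A E))) :=
    card_quot_le_of_le hmN3
  set B := Nat.card (E ⧸ (m • (⊤ : Submodule A E))) with hB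
  have hB1 : 1 ≤ B := one_le_card_quot _
  calc Nat.card E ≤ Nat.card (E ⧸ N1) ^ (J ^ S1.card) := I1
    _ ≤ (Nat.card (E ⧸ N2) ^ 4) ^ (J ^ S1.card) := Nat.pow_le_pow_left I2 _
    _ ≤ ((Nat.card (E ⧸ N3) ^ (2 ^ S3.card)) ^ 4) ^ (J ^ S1.card) :=
        Nat.pow_le_pow_left (Nat.pow_le_pow_left I3 _) _
    _ ≤ ((B ^ (2 ^ S3.card)) ^ 4) ^ (J ^ S1.card) :=
        Nat.pow_le_pow_left (Nat.pow_le_pow_left (Nat.pow_le_pow_left I4 _) _) _
    _ = B ^ (2 ^ S3.card * 4 * J ^ S1.card) := by rw [← pow_mul, ← pow_mul, mul_assoc]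
    _ ≤ B ^ (4 * 8 ^ Fintype.card R * J ^ (3 * Fintype.card R + Fintype.card G)) := by
        apply Nat.pow_le_pow_right hB1
        have e1 : 2 ^ S3.card ≤ 8 ^ Fintype.card R := by
          calc 2 ^ S3.card ≤ 2 ^ (3 * Fintype.card R) := Nat.pow_le_pow_right (by norm_num) hS3c
            _ = 8 ^ Fintype.card R := by rw [pow_mul]; norm_num
        have e2 : J ^ S1.card ≤ J ^ (3 * Fintype.card R + Fintype.card G) :=
          Nat.pow_le_pow_right hJ1 hS1c
        calc 2 ^ S3.card * 4 * J ^ S1.card ≤ 8 ^ Fintype.card R * 4 * J ^ S1.card := by gcongr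
          _ ≤ 8 ^ Fintype.card R * 4 * J ^ (3 * Fintype.card R + Fintype.card G) := by gcongr
          _ = _ := by ring

end main

end Fermat.Agent.TW.Elem
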